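/-
S56 / block EC / BASE CASE : the S55 <-> number field dictionary, EQUIVARIANTLY (co-architect
helper58).  Definitions only.

`X` a `GQ`-set, `ρ : X →[GQ] X` an equivariant self map (`X = GQ ⧸ U`, `ρ` = right translation).
* `orbQ u hu`    : the map induced by an equivariant self map on the set of orbits
* `conjMap c ρ`  : the map induced by `ρ` on `ConjOrb c X` (`Base/CohDefs.lean`)
* `locMap q ρ`   : the map induced by `ρ` on `LocOrb q X`
* `opS S A ρ n`  : the operator induced by `ρ` on `H^n_S(A_X)`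
* `opLoc q ρ n`  : the operator induced by `ρ` on `H^n_q(K_X)`
* `IsResOf s σ`  : `σ` is the automorphism of the number field `K` induced by `s : GQ`
-/
import Fermat.Agent.S56.EC.Defs
import Fermat.Agent.S56.EC.Base.CohDefs
import Fermat.Agent.S56.EC.Base.NFDefs
import Fermat.Agent.S55.Units.T1.Defs
import Fermat.Agent.S55.Coh.SetDefs2
import Fermat.Agent.S55.Dict.Defs

set_option autoImplicit false

namespace Fermat.Agent.S56.EC.Base

open Fermat.Agent.S55

/-- The map induced on orbits by a self map commuting with the action. -/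
def orbQ {H Y : Type} [Group H] [MulAction H Y] (u : Y → Y)
    (hu : ∀ (h : H) (y : Y), u (h • y) = h • u y) :
    MulAction.orbitRel.Quotient H Y → MulAction.orbitRel.Quotient H Y :=
  Quotient.map' u (by
    rintro a b ⟨h, rfl⟩
    exact ⟨h, (hu h b).symm⟩)

theorem orbQ_mk {H Y : Type} [Group H] [MulAction H Y] (u : Y → Y)
    (hu : ∀ (h : H) (y : Y), u (h • y) = h • u y) (y : Y) :
    orbQ u hu (Quotient.mk'' y) = Quotient.mk'' (u y) := rfl

variable {X : Type} [MulAction GQ X]

/-- The map induced by `ρ` on `⟨c⟩ \ X`. -/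
noncomputable def conjMap (c : GQ) (ρ : X →[GQ] X) : ConjOrb c X → ConjOrb c X :=
  orbQ ρ fun h y => map_smul ρ (h : GQ) y

/-- The map induced by `ρ` on the local orbits. -/
noncomputable def locMap (q : Nat.Primes) (ρ : X →[GQ] X) : LocOrb q X → LocOrb q X :=
  orbQ (ResSet.map (ιv q) ρ) fun h y => map_smul (ResSet.map (ιv q) ρ) h y

/-- The map induced by `ρ` on the disjoint union of the local orbits, `q ∈ S`. -/
noncomputable def locMapS (S : Finset Nat.Primes) (ρ : X →[GQ] X) :
    (Σ q : ↥S, LocOrb q.1 X) → (Σ q : ↥S, LocOrb q.1 X) :=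
  Sigma.map id fun q => locMap q.1 ρ

/-- The operator induced by `ρ` on `H^n_S(A_X)`. -/
noncomputable def opS (S : Finset Nat.Primes) (A : Type) [AddCommGroup A] [DistribMulAction GQ A]
    (ρ : X →[GQ] X) (n : ℕ) :
    Hsm (lvlS S) (IndMod X A) n →+ Hsm (lvlS S) (IndMod X A) n :=
  Hsm.map (IndMod.pull A ρ) n

/-- The operator induced by `ρ` on `H^n_q(K_X)`. -/
noncomputable def opLoc (q : Nat.Primes) (ρ : X →[GQ] X) (n : ℕ) :
    Hloc q (IndMod X Kx) n →+ Hloc q (IndMod X Kx) n :=
  Hsm.map (ResMod.map (ιv q) (IndMod.pull Kx ρ)) n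

/-! ### comparison with the names of `Base/CohDefs.lean` (helper83) -/

theorem conjMap_eq_tauConj (c : GQ) (ρ : X →[GQ] X) : conjMap c ρ = tauConj c ρ := rfl

theorem locMap_eq_tauLoc (q : Nat.Primes) (ρ : X →[GQ] X) : locMap q ρ = tauLoc q ρ := rfl

theorem opLoc_eq_locOp (q : Nat.Primes) (ρ : X →[GQ] X) (n : ℕ) : opLoc q ρ n = locOp q ρ n := rfl

theorem opS_eq (S : Finset Nat.Primes) (A : Type) [AddCommGroup A] [DistribMulAction GQ A]
    (ρ : X →[GQ] X) (n : ℕ) : opS S A ρ n = Hsm.map (IndMod.pull A ρ) n := rfl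

/-- `σ` is the automorphism of `K` induced by `s`. -/
def IsResOf {K : Type} [Field K] [Algebra K Qb] (s : GQ) (σ : K ≃+* K) : Prop :=
  ∀ x : K, algebraMap K Qb (σ x) = s (algebraMap K Qb x)

end Fermat.Agent.S56.EC.Base
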