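/-
S56 / EC / BASE / Dict : leaf EC-B-D-C1 (complex conjugation, basics), helper162.
-/
import Fermat.Agent.S56.EC.Base.Dict.Defs
import Fermat.Prelude.Def_GaloisRep_ComplexConjugation

set_option autoImplicit false

namespace Fermat.Agent.S56.EC.Base

open Fermat.Agent.S55 Polynomial

/-- `complexEmbedding_complexConjugation`. -/
theorem isConj_complexConjugation : IsConj complexConjugation :=
  ⟨complexEmbedding.toRingHom, fun x => complexEmbedding_complexConjugation x⟩

/-- `ι (c (c x)) = conj (conj (ι x)) = ι x`, `ι` injective. -/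
theorem IsConj.mul_self {c : GQ} (hc : IsConj c) : c * c = 1 := by
  obtain ⟨ι, hι⟩ := hc
  refine AlgEquiv.ext fun x => ι.injective ?_
  change ι (c (c x)) = ι x
  rw [hι, hι, Complex.conj_conj]

/-- the statement in `Qb`. -/
private theorem ConjBasic.apply_root {c : GQ} (hc : IsConj c) {m : ℕ} (hm : 0 < m) {ζ : Qb}
    (hζ : ζ ^ m = 1) : c ζ = ζ⁻¹ := by
  obtain ⟨ι, hι⟩ := hc
  apply ι.injective
  rw [hι, map_inv₀]
  have h1 : (ι ζ) ^ m = 1 := by rw [← map_pow, hζ, map_one]
  have h2 : ‖ι ζ‖ = 1 := Complex.norm_eq_one_of_pow_eq_one h1 hm.ne'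
  exact (Complex.inv_eq_conj h2).symm

/-- `ζ^m = 1` ⟹ `|ι ζ| = 1` ⟹ `conj (ι ζ) = (ι ζ)⁻¹` ⟹ `c ζ = ζ⁻¹`. -/
theorem IsConj.smul_mu {c : GQ} (hc : IsConj c) {m : ℕ} (hm : 0 < m) (z : Mu m) : c • z = -z := by
  apply (muSub m).incl_injective
  rw [GSub.incl_smul, map_neg]
  set x : Kx := (muSub m).incl z with hx
  have hmem : m • x = 0 := (muSub m).incl_mem z
  have hpow : x.val ^ m = 1 := by
    have h1 : (m • x).val = x.val ^ m := by
      simp [Kx.val]
    rw [← h1, hmem, Kx.val_zero]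
  have hval : (c • x).val = (-x).val := by
    rw [Kx.val_smul, Kx.val_neg]
    exact ConjBasic.apply_root hc hm hpow
  exact Additive.toMul.injective (Units.ext hval)

end Fermat.Agent.S56.EC.Base
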