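/-
S56 / EC / BASE / Dict : leaf EC-B-D-L4 (abstract: a group whose `p`-torsion is `Map(Y, (ℚ/ℤ)[p])`).
Owner: helper158.
-/
import Fermat.Agent.S56.EC.Base.Perm
import Fermat.Agent.S56.EC.Base.SumKer
import Fermat.Agent.S55.Units.T1.AbsCount

set_option autoImplicit false

namespace Fermat.Agent.S56.EC.Base

open Fermat.Agent.S55 Polynomial

/-! ### `(ℚ/ℤ)[p] = ℤ/p` -/

theorem LocAbs.zmodToQZ_intCast (p : ℕ) (n : ℤ) :
    zmodToQZ p (n : ZMod p) = QZ.mk ((n : ℚ) / p) := by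
  unfold zmodToQZ
  rw [ZMod.lift_coe]
  change (zmultiplesHom QZ) (QZ.mk (1 / (p : ℚ))) n = _
  rw [zmultiplesHom_apply, ← map_zsmul]
  congr 1
  rw [zsmul_eq_mul]
  ring

theorem LocAbs.QZ_mk_eq_zero_iff (r : ℚ) : QZ.mk r = 0 ↔ ∃ m : ℤ, (m : ℚ) = r := by
  unfold QZ.mk
  rw [QuotientAddGroup.mk'_apply, QuotientAddGroup.eq_zero_iff, AddMonoidHom.mem_range]
  rfl

theorem LocAbs.zmodToQZ_injective {p : ℕ} (hp : 0 < p) : Function.Injective (zmodToQZ p) := by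
  have hpQ : (p : ℚ) ≠ 0 := by exact_mod_cast hp.ne'
  rw [injective_iff_map_eq_zero]
  intro t ht
  obtain ⟨n, rfl⟩ := ZMod.intCast_surjective t
  rw [LocAbs.zmodToQZ_intCast, LocAbs.QZ_mk_eq_zero_iff] at ht
  obtain ⟨m, hm⟩ := ht
  have h3 : (n : ℚ) = ((m * p : ℤ) : ℚ) := by
    rw [eq_div_iff hpQ] at hm
    push_cast
    exact hm.symm
  have h4 : n = m * p := by exact_mod_cast h3
  rw [h4]
  push_cast
  rw [ZMod.natCast_self, mul_zero]

theorem LocAbs.nsmul_zmodToQZ (p : ℕ) (t : ZMod p) : p • zmodToQZ p t = 0 := by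
  rw [← map_nsmul]
  have : p • t = 0 := by rw [nsmul_eq_mul, ZMod.natCast_self, zero_mul]
  rw [this, map_zero]

theorem LocAbs.exists_zmodToQZ_eq {p : ℕ} (hp : 0 < p) (c : QZ) (hc : p • c = 0) :
    ∃ t, zmodToQZ p t = c := by
  have hpQ : (p : ℚ) ≠ 0 := by exact_mod_cast hp.ne'
  obtain ⟨r, rfl⟩ : ∃ r : ℚ, QZ.mk r = c := QuotientAddGroup.mk'_surjective _ c
  rw [← map_nsmul, LocAbs.QZ_mk_eq_zero_iff] at hc
  obtain ⟨m, hm⟩ := hc
  refine ⟨(m : ZMod p), ?_⟩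
  rw [LocAbs.zmodToQZ_intCast, hm, nsmul_eq_mul, mul_div_cancel_left₀ _ hpQ]

/-! ### The statements -/

/-- an equivariant map which is bijective on `p`-torsion preserves `cntT`. -/
theorem cntT_eq_of_bij_tors {M M' : Type*} [AddCommGroup M] [AddCommGroup M'] (Λ : M →+ M')
    {g : M →+ M} {g' : M' →+ M'} (h : ∀ x, Λ (g x) = g' (Λ x)) (p : ℕ)
    (inj : ∀ x, p • x = 0 → Λ x = 0 → x = 0)
    (surj : ∀ y, p • y = 0 → ∃ x, p • x = 0 ∧ Λ x = y) (P : ℤ[X]) :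
    cntT p P g = cntT p P g' := by
  rw [SumKer.cntT_eq p P g]
  refine (cntT_eq_cnt (Λ.comp (nsmulAddMonoidHom (α := M) p).ker.subtype) ?_
    (gW := SumKer.res p g) (gM := g') (fun w => ?_) p (fun y => ?_) P).symm
  · rw [injective_iff_map_eq_zero]
    intro x hx
    exact Subtype.ext (inj x ((SumKer.mem_ker_iff p _).1 x.2) hx)
  · exact h w
  · constructor
    · intro hy
      obtain ⟨x, hx, hxy⟩ := surj y hy
      exact ⟨⟨x, (SumKer.mem_ker_iff p x).2 hx⟩, hxy⟩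
    · rintro ⟨w, rfl⟩
      have hw := (SumKer.mem_ker_iff p (w : M)).1 w.2
      show p • Λ (w : M) = 0
      rw [← map_nsmul, hw, map_zero]

/-- `Map(Y, ℚ/ℤ)[p] = Map(Y, ℤ/p)`. -/
theorem cntT_perm_QZ {Y : Type*} (τ : Y → Y) {p : ℕ} (hp : 0 < p) (P : ℤ[X]) :
    cntT p P (perm τ QZ) = cnt P (perm τ (ZMod p)) := by
  refine cntT_eq_cnt (AddMonoidHom.compLeft (zmodToQZ p) Y) ?_ (fun _ => rfl) p (fun x => ?_) P
  · intro a b hab
    funext y
    exact LocAbs.zmodToQZ_injective hp (congrFun hab y)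
  · constructor
    · intro hx
      choose w hw using fun y => LocAbs.exists_zmodToQZ_eq hp (x y) (congrFun hx y)
      exact ⟨w, funext hw⟩
    · rintro ⟨w, rfl⟩
      funext y
      exact LocAbs.nsmul_zmodToQZ p (w y)

theorem cntT_id_QZ {p : ℕ} (hp : p.Prime) (P : ℤ[X]) :
    cntT p P (AddMonoidHom.id QZ) = cnt P (AddMonoidHom.id (ZMod p)) :=
  cntT_id_eq hp (torsCard_QZ p hp.pos) P

theorem finite_tors_of_inj {M : Type*} [AddCommGroup M] {Y : Type*} [Finite Y] (Λ : M →+ (Y → QZ))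
    {p : ℕ} (hp : 0 < p) (inj : ∀ x, p • x = 0 → Λ x = 0 → x = 0) :
    Finite (nsmulAddMonoidHom (α := M) p).ker := by
  have : NeZero p := ⟨hp.ne'⟩
  have key : ∀ x : (nsmulAddMonoidHom (α := M) p).ker, ∀ y : Y,
      ∃ t : ZMod p, zmodToQZ p t = Λ (x : M) y := by
    intro x y
    refine LocAbs.exists_zmodToQZ_eq hp _ ?_
    have hx := (SumKer.mem_ker_iff p (x : M)).1 x.2
    have h1 : p • Λ (x : M) = 0 := by rw [← map_nsmul, hx, map_zero]
    exact congrFun h1 y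
  choose f hf using key
  refine Finite.of_injective (fun x => f x) ?_
  intro a b hab
  have h1 : Λ (a : M) = Λ (b : M) := by
    funext y
    rw [← hf a y, ← hf b y]
    exact congrArg (fun φ : Y → ZMod p => zmodToQZ p (φ y)) hab
  have ha := (SumKer.mem_ker_iff p (a : M)).1 a.2
  have hb := (SumKer.mem_ker_iff p (b : M)).1 b.2
  have h2 : (a : M) - (b : M) = 0 :=
    inj _ (by rw [smul_sub, ha, hb, sub_zero]) (by rw [map_sub, h1, sub_self])
  exact Subtype.ext (sub_eq_zero.1 h2)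

end Fermat.Agent.S56.EC.Base
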