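/-
S56 / EC / BASE / Dict : the local part (A4), definitions.
`lam L X : H²_q(K_X) → Map(G_q \ X, ℚ/ℤ)`, the family of the invariants at the places over `q`.
-/
import Fermat.Agent.S56.EC.Base.Dict.Defs
import Fermat.Agent.S55.Units.T1.LocalDecomp

set_option autoImplicit false

namespace Fermat.Agent.S56.EC.Base

open Fermat.Agent.S55

/-- The invariants at the places over `q` of a class of `H²_q(K_X)`. -/
noncomputable def lam {p : ℕ} {q : Nat.Primes} (L : LocPkg p q) (X : Type) [MulAction GQ X]
    [Finite X] : Hloc q (IndMod X Kx) 2 →+ (LocOrb q X → QZ) :=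
  AddMonoidHom.pi fun ω => (invY q ω.orbit L.inv).comp (locDecomp q X 2 ω)

theorem lam_apply {p : ℕ} {q : Nat.Primes} (L : LocPkg p q) (X : Type) [MulAction GQ X]
    [Finite X] (y : Hloc q (IndMod X Kx) 2) (ω : LocOrb q X) :
    lam L X y ω = invY q ω.orbit L.inv (locDecomp q X 2 ω y) := rfl

end Fermat.Agent.S56.EC.Base
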