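/-
S56 / EC / BASE / Dict : leaf EC-B-D-L2 (equivariance of `lam`).  Architect helper58, proof helper111.
-/
import Fermat.Agent.S56.EC.Base.Dict.LocDefs
import Fermat.Agent.S55.Coh.Functor

set_option autoImplicit false

namespace Fermat.Agent.S56.EC.Base

open Fermat.Agent.S55

/-- an injective equivariant self map sends an orbit bijectively onto its image orbit. -/
theorem LocLam.exists_orbit_equiv {H Y : Type} [Group H] [MulAction H Y] (u : Y → Y)
    (hu : ∀ (h : H) (y : Y), u (h • y) = h • u y) (hinj : Function.Injective u)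
    (ω : MulAction.orbitRel.Quotient H Y) :
    ∃ e : ω.orbit ≃ (orbQ u hu ω).orbit, ∀ x, (e x : Y) = u x := by
  have hmem : ∀ x : ω.orbit, u x ∈ (orbQ u hu ω).orbit := by
    intro x
    rw [MulAction.orbitRel.Quotient.mem_orbit, ← orbQ_mk u hu,
      MulAction.orbitRel.Quotient.mem_orbit.1 x.2]
  refine ⟨Equiv.ofBijective (fun x => ⟨u x, hmem x⟩) ⟨?_, ?_⟩, fun x => rfl⟩
  · intro x y hxy
    exact Subtype.ext (hinj (congrArg Subtype.val hxy))
  · rintro ⟨x', hx'⟩
    induction ω using Quotient.inductionOn' with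
    | h x0 =>
      rw [MulAction.orbitRel.Quotient.mem_orbit, orbQ_mk, Quotient.eq'',
        MulAction.orbitRel_apply] at hx'
      obtain ⟨h, hh⟩ := hx'
      refine ⟨⟨h • x0, ?_⟩, Subtype.ext ?_⟩
      · rw [MulAction.orbitRel.Quotient.mem_orbit, Quotient.eq'', MulAction.orbitRel_apply]
        exact ⟨h, rfl⟩
      · change u (h • x0) = x'
        rw [hu]
        exact hh

/-- the sum over the image orbit. -/
theorem LocLam.finsum_orbit {H Y M : Type} [Group H] [MulAction H Y] [AddCommMonoid M] (u : Y → Y)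
    (hu : ∀ (h : H) (y : Y), u (h • y) = h • u y) (hinj : Function.Injective u)
    (ω : MulAction.orbitRel.Quotient H Y) (f : Y → M) :
    ∑ᶠ x : ω.orbit, f (u x) = ∑ᶠ x : (orbQ u hu ω).orbit, f x := by
  obtain ⟨e, he⟩ := LocLam.exists_orbit_equiv u hu hinj ω
  rw [← finsum_comp_equiv e]
  exact finsum_congr fun x => by rw [he]

variable {X : Type} [MulAction GQ X]

/-- `lam (ρ^* y) ω = lam y (ρ ω)`.
[Unfold: both sides are `L.inv (Hsm.map Φ 2 y)` for two `Gv q`-maps
`Φ, Φ' : ResMod (ιv q) (IndMod X Kx) →+[Gv q] KL q` (`Hsm.map_comp`/`Hsm.map_comp'`),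
`Φ F = ∑_{x ∈ ω} F (ρ x)`, `Φ' F = ∑_{x ∈ ρ ω} F x`; they agree (`Hsm.map_congr`) because `ρ` maps the
orbit `ω` bijectively onto the orbit `locMap q ρ ω` (`finsum_comp_equiv` / `Finset.sum_bij`):
injective since `ρ` is, onto since `ρ (h • x) = h • ρ x`.] -/
theorem lam_opLoc {p : ℕ} {q : Nat.Primes} (L : LocPkg p q) [Finite X] (ρ : X →[GQ] X)
    (hρ : Function.Injective ρ) (y : Hloc q (IndMod X Kx) 2) (ω : LocOrb q X) :
    lam L X (opLoc q ρ 2 y) ω = lam L X y (locMap q ρ ω) := by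
  have hinj : Function.Injective (ResSet.map (ιv q) ρ) := by
    intro a b hab
    exact ResSet.ext (hρ (congrArg ResSet.val hab))
  have key : ∀ F : ResMod (ιv q) (IndMod X Kx),
      ((((IndMod.sum ω.orbit (KL q)).comp (IndMod.pull (KL q) (orbitIncl ω))).comp
        (IndMod.toResSet (ιv q) X Kx)).comp (ResMod.map (ιv q) (IndMod.pull Kx ρ))) F =
      (((IndMod.sum (locMap q ρ ω).orbit (KL q)).comp
        (IndMod.pull (KL q) (orbitIncl (locMap q ρ ω)))).comp (IndMod.toResSet (ιv q) X Kx)) F := by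
    intro F
    exact LocLam.finsum_orbit (ResSet.map (ιv q) ρ)
      (fun h y => map_smul (ResSet.map (ιv q) ρ) h y) hinj ω
      (fun x => ResMod.toRes (ιv q) (((ResMod.toRes (ιv q)).symm F) x.val))
  have h1 := congrArg (fun φ => L.inv (φ y)) (Hsm.map_congr (𝓝 := lvlLoc q) key 2)
  simp only [Hsm.map_comp] at h1
  exact h1

end Fermat.Agent.S56.EC.Base
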