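/-
S56 / EC / BASE / Dict : leaf EC-B-D-L3 (`lam` is bijective on `p`-torsion).  Proof: helper199.
-/
import Fermat.Agent.S56.EC.Base.Dict.LocDefs

set_option autoImplicit false

namespace Fermat.Agent.S56.EC.Base

open Fermat.Agent.S55

variable {X : Type} [MulAction GQ X]

private theorem LocLamBij.eq_zero_of_locDecomp {q : Nat.Primes} [Finite X]
    (y : Hloc q (IndMod X Kx) 2) (h : ∀ ω : LocOrb q X, locDecomp q X 2 ω y = 0) : y = 0 := by
  apply (locDecomp_bijective q X 2).1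
  funext ω
  simp only [h ω, map_zero]

private theorem LocLamBij.mem_pPrimary {p : ℕ} {M : Type} [AddCommGroup M] {v : M}
    (h : p • v = 0) : v ∈ pPrimary p M := ⟨1, by rwa [pow_one]⟩

/-- `locDecomp_bijective` + `LocPkg.L3inj` (compare the proof of `S55.card_local_ker` in
`S55/Units/T1/LocalCount.lean` for the instances). -/
theorem lam_injective {p : ℕ} {q : Nat.Primes} (L : LocPkg p q) [Finite X] [SmoothSet lvlAll X]
    (y : Hloc q (IndMod X Kx) 2) (hy : p • y = 0) (h : lam L X y = 0) : y = 0 := by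
  refine LocLamBij.eq_zero_of_locDecomp y fun ω => ?_
  refine L.L3inj ω.orbit _ (LocLamBij.mem_pPrimary ?_) ?_
  · rw [← map_nsmul, hy, map_zero]
  · rw [← lam_apply, h]
    rfl

/-- `locDecomp_bijective` + `LocPkg.L3surj` (+ `L3inj` to see that the preimage is killed by `p`). -/
theorem lam_surjective {p : ℕ} {q : Nat.Primes} (L : LocPkg p q) [Finite X] [SmoothSet lvlAll X]
    (φ : LocOrb q X → QZ) (hφ : p • φ = 0) :
    ∃ y : Hloc q (IndMod X Kx) 2, p • y = 0 ∧ lam L X y = φ := by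
  have hφ' : ∀ ω, p • φ ω = 0 := fun ω => congrFun hφ ω
  have hex : ∀ ω : LocOrb q X, ∃ v ∈ pPrimary p (HKY q ω.orbit 2),
      invY q ω.orbit L.inv v = φ ω := fun ω =>
    have : Nonempty ω.orbit := (MulAction.orbitRel.Quotient.nonempty_orbit ω).to_subtype
    L.L3surj ω.orbit _ (LocLamBij.mem_pPrimary (hφ' ω))
  choose v hv hvφ using hex
  have hpv : ∀ ω, p • v ω = 0 := fun ω => by
    refine L.L3inj ω.orbit _ ((pPrimary p _).nsmul_mem (hv ω) p) ?_
    rw [map_nsmul, hvφ, hφ']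
  obtain ⟨y, hy⟩ := (locDecomp_bijective q X 2).2 v
  have hy' : ∀ ω, locDecomp q X 2 ω y = v ω := fun ω => congrFun hy ω
  refine ⟨y, LocLamBij.eq_zero_of_locDecomp _ fun ω => ?_, funext fun ω => ?_⟩
  · rw [map_nsmul, hy', hpv]
  · rw [lam_apply, hy', hvφ]

/-- `invX_eq_sum`. -/
theorem invX_eq_sum_lam {p : ℕ} {q : Nat.Primes} (L : LocPkg p q) [Finite X]
    [Fintype (LocOrb q X)] (y : Hloc q (IndMod X Kx) 2) :
    invX L X y = ∑ ω : LocOrb q X, lam L X y ω := by
  rw [invX_eq_sum]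
  rfl

/-- every `p`-torsion element of `ℚ/ℤ` is an invariant (`Pi.single` at one orbit). -/
theorem exists_invX_eq {p : ℕ} {q : Nat.Primes} (L : LocPkg p q) [Finite X] [Nonempty X]
    [SmoothSet lvlAll X] (c : QZ) (hc : p • c = 0) :
    ∃ y : Hloc q (IndMod X Kx) 2, p • y = 0 ∧ invX L X y = c := by
  classical
  have hfin : Finite (LocOrb q X) := Quotient.finite _
  have := Fintype.ofFinite (LocOrb q X)
  let ω₀ : LocOrb q X := Quotient.mk'' (ResSet.of (Classical.arbitrary X))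
  obtain ⟨y, hy, hl⟩ := lam_surjective L (Pi.single ω₀ c) (by
    rw [← Pi.single_smul, hc, Pi.single_zero])
  refine ⟨y, hy, ?_⟩
  rw [invX_eq_sum_lam, hl, Finset.sum_pi_single']
  simp

end Fermat.Agent.S56.EC.Base
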