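/-
S56 / EC / BASE / Dict : leaf EC-B-D-L1 (formal properties of the operators `opS`, `opLoc`).
-/
import Fermat.Agent.S56.EC.Base.Dict.LocDefs
import Fermat.Agent.S55.Coh.ResApi
import Fermat.Agent.S55.Coh.Functor

set_option autoImplicit false

namespace Fermat.Agent.S56.EC.Base

open Fermat.Agent.S55

/-- an equivariant self map of finite order induces an operator of finite order on cohomology -/
theorem LocOp.hsm_map_iterate {G : Type} [Group G] {𝓝 : LevelSys G} {A : Type} [AddCommGroup A]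
    [DistribMulAction G A] (φ : A →+[G] A) {m : ℕ} (h : ∀ a, φ^[m] a = a) (n : ℕ)
    (y : Hsm 𝓝 A n) : (Hsm.map φ n)^[m] y = y := by
  induction y using Hsm.induction_on with
  | h z =>
    have h1 : ∀ k : ℕ, (Hsm.map φ n)^[k] (Hsm.mk 𝓝 A n z) =
        Hsm.mk 𝓝 A n ((Zsm.map φ n)^[k] z) := by
      intro k
      induction k with
      | zero => rfl
      | succ k ih =>
        rw [Function.iterate_succ_apply', ih, Hsm.map_mk, Function.iterate_succ_apply']
    have h2 : ∀ (k : ℕ) (g : Fin n → G),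
        (((Zsm.map φ n)^[k] z : Zsm 𝓝 A n) : (Fin n → G) → A) g = φ^[k] (z.1 g) := by
      intro k
      induction k with
      | zero => intro g; rfl
      | succ k ih =>
        intro g
        rw [Function.iterate_succ_apply', Function.iterate_succ_apply', Zsm.coe_map, cmap_apply, ih]
        rfl
    rw [h1]
    congr 1
    ext1
    funext g
    rw [h2, h]

variable {X : Type} [MulAction GQ X]

theorem LocOp.pull_iterate (A : Type) [AddCommGroup A] [DistribMulAction GQ A] (ρ : X →[GQ] X)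
    (k : ℕ) (f : IndMod X A) (x : X) : ((IndMod.pull A ρ)^[k] f) x = f (ρ^[k] x) := by
  induction k generalizing x with
  | zero => rfl
  | succ k ih =>
    rw [Function.iterate_succ_apply', IndMod.pull_apply, ih, ← Function.iterate_succ_apply]

theorem opS_iterate (S : Finset Nat.Primes) (A : Type) [AddCommGroup A] [DistribMulAction GQ A]
    (ρ : X →[GQ] X) {m : ℕ} (hρ : ∀ x, ρ^[m] x = x) (n : ℕ) (y : Hsm (lvlS S) (IndMod X A) n) :
    (opS S A ρ n)^[m] y = y := by
  refine LocOp.hsm_map_iterate (IndMod.pull A ρ) (fun f => ?_) n y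
  ext x
  rw [LocOp.pull_iterate, hρ]

theorem LocOp.resMap_iterate {H G : Type} [Group H] [Group G] (f : H →* G) {A : Type}
    [AddCommGroup A] [DistribMulAction G A] (φ : A →+[G] A) (k : ℕ) (a : ResMod f A) :
    (ResMod.map f φ)^[k] a = ResMod.toRes f (φ^[k] ((ResMod.toRes f).symm a)) := by
  induction k with
  | zero => rfl
  | succ k ih =>
    rw [Function.iterate_succ_apply', ih, ResMod.map_toRes, Function.iterate_succ_apply']

theorem opLoc_iterate (q : Nat.Primes) (ρ : X →[GQ] X) {m : ℕ} (hρ : ∀ x, ρ^[m] x = x) (n : ℕ)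
    (y : Hloc q (IndMod X Kx) n) : (opLoc q ρ n)^[m] y = y := by
  refine LocOp.hsm_map_iterate (ResMod.map (ιv q) (IndMod.pull Kx ρ)) (fun a => ?_) n y
  rw [LocOp.resMap_iterate]
  have : (IndMod.pull Kx ρ)^[m] ((ResMod.toRes (ιv q)).symm a) = (ResMod.toRes (ιv q)).symm a := by
    ext x
    rw [LocOp.pull_iterate, hρ]
  rw [this, AddEquiv.apply_symm_apply]

/-- naturality of `locS` (`Hsm.res_map`) and `Hsm.map_comp'`; `mapCoeff` and `pull` commute. -/
theorem locE_opS (S : Finset Nat.Primes) (q : Nat.Primes) (ρ : X →[GQ] X) (n : ℕ)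
    (x : Hsm (lvlS S) (IndMod X (ESx S)) n) :
    locE S X q n (opS S (ESx S) ρ n x) = opLoc q ρ n (locE S X q n x) := by
  induction x using Hsm.induction_on with
  | h z => rfl

/-- `∑_x F (ρ x) = ∑_x F x` for a bijection `ρ`. -/
theorem invX_opLoc {p : ℕ} {q : Nat.Primes} (L : LocPkg p q) [Finite X] (ρ : X →[GQ] X)
    (hρ : Function.Bijective ρ) (y : Hloc q (IndMod X Kx) 2) :
    invX L X (opLoc q ρ 2 y) = invX L X y := by
  show L.inv (Hsm.map (ResMod.map (ιv q) (IndMod.sum X Kx)) 2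
    (Hsm.map (ResMod.map (ιv q) (IndMod.pull Kx ρ)) 2 y)) =
      L.inv (Hsm.map (ResMod.map (ιv q) (IndMod.sum X Kx)) 2 y)
  rw [← Hsm.map_comp' (χ := ResMod.map (ιv q) (IndMod.sum X Kx))]
  intro a
  show ResMod.toRes (ιv q) (IndMod.sum X Kx ((ResMod.toRes (ιv q)).symm a)) =
    ResMod.toRes (ιv q) (IndMod.sum X Kx (IndMod.pull Kx ρ ((ResMod.toRes (ιv q)).symm a)))
  congr 1
  rw [IndMod.sum_def, IndMod.sum_def]
  exact (finsum_comp_equiv (Equiv.ofBijective ρ hρ)
    (f := fun x => ((ResMod.toRes (ιv q)).symm a : IndMod X Kx) x)).symm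

/-- a self map of finite order is bijective -/
theorem bijective_of_iterate {Y : Type*} (τ : Y → Y) {m : ℕ} (hm : 0 < m)
    (hτ : ∀ y, τ^[m] y = y) : Function.Bijective τ := by
  obtain ⟨k, rfl⟩ : ∃ k, m = k + 1 := ⟨m - 1, by omega⟩
  constructor
  · intro a b hab
    rw [← hτ a, ← hτ b, Function.iterate_succ_apply, Function.iterate_succ_apply, hab]
  · intro y
    exact ⟨τ^[k] y, by rw [← Function.iterate_succ_apply' τ k y, hτ]⟩

theorem LocOp.orbQ_iterate {H Y : Type} [Group H] [MulAction H Y] (u : Y → Y)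
    (hu : ∀ (h : H) (y : Y), u (h • y) = h • u y) {m : ℕ} (hm : ∀ y, u^[m] y = y)
    (ω : MulAction.orbitRel.Quotient H Y) : (orbQ u hu)^[m] ω = ω := by
  induction ω using Quotient.inductionOn' with
  | h y =>
    have h1 : ∀ k : ℕ, (orbQ u hu)^[k] (Quotient.mk'' y) = Quotient.mk'' (u^[k] y) := by
      intro k
      induction k with
      | zero => rfl
      | succ k ih => rw [Function.iterate_succ_apply', ih, orbQ_mk, Function.iterate_succ_apply']
    rw [h1, hm]

/-- the induced maps on orbits have finite order -/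
theorem locMap_iterate (q : Nat.Primes) (ρ : X →[GQ] X) {m : ℕ} (hρ : ∀ x, ρ^[m] x = x)
    (ω : LocOrb q X) : (locMap q ρ)^[m] ω = ω := by
  refine LocOp.orbQ_iterate _ _ (fun y => ?_) ω
  apply ResSet.ext
  rw [ResSet.val_iterate_map, hρ]

theorem conjMap_iterate (c : GQ) (ρ : X →[GQ] X) {m : ℕ} (hρ : ∀ x, ρ^[m] x = x)
    (ω : ConjOrb c X) : (conjMap c ρ)^[m] ω = ω :=
  LocOp.orbQ_iterate _ _ hρ ω

end Fermat.Agent.S56.EC.Base
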