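/-
S56 / EC / BASE / Dict : node EC-B-D-L5 (export `cntT_H2E` of the local part; assembly).
Owner: helper168.
-/
import Fermat.Agent.S56.EC.Base.Dict.LocOp
import Fermat.Agent.S56.EC.Base.Dict.LocLam
import Fermat.Agent.S56.EC.Base.Dict.LocLamBij
import Fermat.Agent.S56.EC.Base.Dict.LocAbs
import Fermat.Agent.S55.Units.T1.U4Defs

set_option autoImplicit false

namespace Fermat.Agent.S56.EC.Base

open Fermat.Agent.S55 Polynomial

variable {X : Type} [MulAction GQ X]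

/-- `#π H²_q(K_X)[p] = #π 𝔽_p[G_q \ X]`. -/
theorem cntT_opLoc {p : ℕ} [Fact p.Prime] {q : Nat.Primes} (L : LocPkg p q) [Finite X]
    [SmoothSet lvlAll X] (ρ : X →[GQ] X) (hρ : Function.Injective ρ) (P : ℤ[X]) :
    cntT p P (opLoc q ρ 2) = cnt P (perm (locMap q ρ) (ZMod p)) := by
  rw [← cntT_perm_QZ (locMap q ρ) (Fact.out : p.Prime).pos P]
  exact cntT_eq_of_bij_tors (lam L X) (g' := perm (locMap q ρ) QZ)
    (fun y => funext fun ω => lam_opLoc L ρ hρ y ω) p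
    (fun y hy h => lam_injective L y hy h) (fun φ hφ => lam_surjective L φ hφ) P

/-- `#π H²_S(E_X)[p] · #π 𝔽_p = ∏_{q ∈ S} #π 𝔽_p[G_q \ X]`. -/
theorem cntT_H2E {S : Finset Nat.Primes} {p m : ℕ} [Fact p.Prime] (L : ∀ q, LocPkg p q)
    [Finite X] [Nonempty X] [SmoothSet lvlAll X] (hS : S.Nonempty)
    (h4 : U4Tors S L X)
    (ρ : X →[GQ] X) (hρ : ∀ x, ρ^[m] x = x) (hm : 0 < m) {P : ℤ[X]} (hP : IsIdemPoly p m P) :
    cntT p P (opS S (ESx S) ρ 2) * cnt P (AddMonoidHom.id (ZMod p)) =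
      ∏ q : ↥S, cnt P (perm (locMap q.1 ρ) (ZMod p)) := by
  have hpp : p.Prime := Fact.out
  have hbij : Function.Bijective ρ := bijective_of_iterate ρ hm hρ
  obtain ⟨q₀, hq₀⟩ := hS
  have h := cntT_mul_eq_prod (M := Hsm (lvlS S) (IndMod X (ESx S)) 2) (T := QZ) (I := ↥S)
    (W := fun q => Hloc q.1 (IndMod X Kx) 2) (opS S (ESx S) ρ 2) (fun q => opLoc q.1 ρ 2)
    (fun q => locE S X q.1 2) (fun q => invX (L q.1) X) (fun q x => locE_opS S q.1 ρ 2 x)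
    (fun q y => invX_opLoc (L q.1) ρ hbij y) hP (fun q y _ => opLoc_iterate q.1 ρ hρ 2 y)
    (fun q => finite_tors_of_inj (lam (L q.1) X) hpp.pos
      (fun y hy h => lam_injective (L q.1) y hy h))
    h4.inj h4.recip h4.exist
    (fun c hc => ⟨⟨q₀, hq₀⟩, exists_invX_eq (L q₀) c hc⟩)
  rw [cntT_id_QZ hpp P] at h
  rw [h]
  exact Finset.prod_congr rfl (fun q _ => cntT_opLoc (L q.1) ρ hbij.1 P)

end Fermat.Agent.S56.EC.Base
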