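/-
S56 / EC / BASE / Dict : leaf EC-B-D-C2 (abstract count of a (-1)-eigenspace; Mathlib + Base/Defs,
Base/Pe only).
-/
import Fermat.Agent.S56.EC.Base.Pe

set_option autoImplicit false

namespace Fermat.Agent.S56.EC.Base

open Polynomial

/-- `(V, gV)` with an operator `T` commuting with `gV`; `(W, gW)` is, through `j`, the
`(-1)`-eigenspace of `T`; `π = P(gV)` is idempotent.  Then `#{v ∈ π V : T v = -v} = #π W`.
[`⊇`: `j (π w) = π (j w)`, `T` commutes with `π` (`pe_comm`).  `⊆`: `v = π v`, `v = j w`, so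
`v = j (π w)`.] -/
theorem card_minus_abs {V W : Type*} [AddCommGroup V] [AddCommGroup W] (gV : V →+ V) (gW : W →+ W)
    (T : V →+ V) (j : W →+ V) (hj : Function.Injective j) (hjg : ∀ w, j (gW w) = gV (j w))
    (him : ∀ v, T v = -v ↔ ∃ w, j w = v) (hT : ∀ v, T (gV v) = gV (T v)) (P : ℤ[X])
    (hidem : ∀ v, pe P gV (pe P gV v) = pe P gV v) :
    Nat.card {v : V // v ∈ (pe P gV).range ∧ T v = -v} = cnt P gW := by
  have _ := hT
  rw [cnt]
  symm
  refine Nat.card_congr (Equiv.ofBijective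
    (fun x : (pe P gW).range => (⟨j x.1, ?_, ?_⟩ :
      {v : V // v ∈ (pe P gV).range ∧ T v = -v})) ⟨?_, ?_⟩)
  · obtain ⟨w, hw⟩ := x.2
    exact ⟨j w, by rw [← hw, pe_comm j hjg]⟩
  · exact (him _).2 ⟨x.1, rfl⟩
  · intro x y h
    exact Subtype.ext (hj (congrArg Subtype.val h))
  · rintro ⟨v, ⟨u, hu⟩, hv⟩
    obtain ⟨w, hw⟩ := (him v).1 hv
    refine ⟨⟨pe P gW w, ⟨w, rfl⟩⟩, Subtype.ext ?_⟩
    show j (pe P gW w) = v
    rw [pe_comm j hjg, hw, ← hu, hidem]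

end Fermat.Agent.S56.EC.Base
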