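/-
S56 / EC / BASE / Dict : leaf EC-B-D-C3 (`(μ_X)^{c=-1} = Map(⟨c⟩\X, 𝔽_p)` equivariantly).
Owner helper174 (architect helper58).
-/
import Fermat.Agent.S56.EC.Base.Dict.Defs
import Fermat.Agent.S55.Bridge.MuCoef

set_option autoImplicit false

namespace Fermat.Agent.S56.EC.Base

open Fermat.Agent.S55 Polynomial

/-- `μ_p` is cyclic of order `p`. -/
theorem MinusInd.exists_equiv (p : ℕ) [Fact p.Prime] : Nonempty (ZMod p ≃+ Mu p) := by
  have h := zmodAddCyclicAddEquiv (isAddCyclic_of_prime_card (Bridge.cardMu p))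
  rw [Bridge.cardMu p] at h
  exact ⟨h⟩

/-- A function invariant under `c⁻¹` is invariant under `⟨c⟩`. -/
theorem MinusInd.invariant {c : GQ} {X B : Type} [MulAction GQ X] (F : X → B)
    (h : ∀ x, F (c⁻¹ • x) = F x) (g : Subgroup.zpowers c) (x : X) : F (g • x) = F x := by
  let H : Subgroup GQ :=
    { carrier := {g | ∀ x, F (g • x) = F x}
      mul_mem' := fun {a b} ha hb x => by rw [mul_smul, ha, hb]
      one_mem' := fun x => by rw [one_smul]
      inv_mem' := fun {a} ha x => by
        have := ha (a⁻¹ • x)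
        rw [smul_inv_smul] at this
        exact this.symm }
  have hc : c ∈ H := by
    have h1 : c⁻¹ ∈ H := h
    have h2 := H.inv_mem h1
    rwa [inv_inv] at h2
  exact (Subgroup.zpowers_le.mpr hc) g.2 x

/-- Choose `e : ZMod p ≃+ Mu p` (`Bridge.cardMu`, cyclic of prime order) and put
`j f = (x ↦ e (f ⟦x⟧))`.  `(c • F) x = c • F (c⁻¹ • x) = - F (c⁻¹ • x)`, so `c • F = -F` iff `F` is
constant on the orbits of `⟨c⟩`. -/
theorem exists_minus_model {p : ℕ} [Fact p.Prime] {c : GQ} (hc : ∀ z : Mu p, c • z = -z)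
    {X : Type} [MulAction GQ X] (ρ : X →[GQ] X) :
    ∃ j : (ConjOrb c X → ZMod p) →+ IndMod X (Mu p), Function.Injective j ∧
      (∀ f, j (perm (conjMap c ρ) (ZMod p) f) = IndMod.pull (Mu p) ρ (j f)) ∧
      (∀ F : IndMod X (Mu p), c • F = -F ↔ ∃ f, j f = F) := by
  obtain ⟨e⟩ := MinusInd.exists_equiv p
  let j : (ConjOrb c X → ZMod p) →+ IndMod X (Mu p) :=
    { toFun := fun f => IndMod.of fun x => e (f (Quotient.mk'' x))
      map_zero' := IndMod.ext fun x => map_zero e
      map_add' := fun f g => IndMod.ext fun x => map_add e _ _ }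
  have hj : ∀ f x, j f x = e (f (Quotient.mk'' x)) := fun _ _ => rfl
  have hmk : ∀ x : X, (Quotient.mk'' (c⁻¹ • x) : ConjOrb c X) = Quotient.mk'' x := by
    intro x
    apply Quotient.sound'
    exact ⟨⟨c⁻¹, Subgroup.inv_mem _ (Subgroup.mem_zpowers c)⟩, rfl⟩
  refine ⟨j, ?_, ?_, ?_⟩
  · intro f g hfg
    funext y
    induction y using Quotient.inductionOn' with
    | h x =>
      have h1 := DFunLike.congr_fun hfg x
      rw [hj, hj] at h1
      exact e.injective h1
  · intro f
    exact IndMod.ext fun x => rfl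
  · intro F
    constructor
    · intro hF
      have h1 : ∀ x, F (c⁻¹ • x) = F x := by
        intro x
        have h2 := DFunLike.congr_fun hF x
        rw [IndMod.smul_apply, hc, IndMod.neg_apply] at h2
        exact neg_injective h2
      refine ⟨Quotient.lift (fun x => e.symm (F x)) ?_, ?_⟩
      · rintro a b ⟨g, rfl⟩
        show e.symm (F (g • b)) = e.symm (F b)
        rw [MinusInd.invariant (fun x => F x) h1 g b]
      · refine IndMod.ext fun x => ?_
        rw [hj]
        exact e.apply_symm_apply (F x)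
    · rintro ⟨f, rfl⟩
      refine IndMod.ext fun x => ?_
      rw [IndMod.smul_apply, hc, IndMod.neg_apply, hj, hj, hmk]

end Fermat.Agent.S56.EC.Base
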