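/-
S56 / EC / BASE / Dict : node EC-B-D-C4 (`card_minus`, assembly of C2 and C3).
-/
import Fermat.Agent.S56.EC.Base.Dict.MinusAbs
import Fermat.Agent.S56.EC.Base.Dict.MinusInd

set_option autoImplicit false

namespace Fermat.Agent.S56.EC.Base

open Fermat.Agent.S55 Polynomial

theorem Minus.nsmul_indMod_mu {p : ℕ} [Fact p.Prime] {X : Type} (F : IndMod X (Mu p)) :
    p • F = 0 := by
  ext x
  rw [IndMod.nsmul_apply, IndMod.zero_apply]
  have h := card_nsmul_eq_zero' (G := Mu p) (x := F x)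
  rwa [Bridge.cardMu p] at h

theorem Minus.pull_iterate {A X : Type} [AddCommGroup A] [DistribMulAction GQ A] [MulAction GQ X]
    (ρ : X →[GQ] X) (k : ℕ) (F : IndMod X A) (x : X) :
    ((IndMod.pull A ρ : IndMod X A →+ IndMod X A)^[k] F) x = F (ρ^[k] x) := by
  induction k generalizing F with
  | zero => rfl
  | succ k ih =>
    rw [Function.iterate_succ_apply, ih, Function.iterate_succ_apply']
    rfl

/-- `#(π μ_X)^{c = -1} = #π 𝔽_p[⟨c⟩ \ X]`.
[`card_minus_abs` with `V = IndMod X (Mu p)`, `gV = pull ρ`, `T = c • ·`, `j` from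
`exists_minus_model`; `pe P gV = polyAdd gV P` by `rfl`; idempotence = `EC.polyAdd_idem`
(`p • F = 0` because `Mu p` is killed by `p`; `gV^[m] = id` from `hρ`);
`Minus c (PolyRange γ P) ≃ {v // v ∈ range ∧ c • v = -v}` through `GSub.incl`.] -/
theorem card_minus {p m : ℕ} [Fact p.Prime] {c : GQ} (hc : ∀ z : Mu p, c • z = -z)
    {X : Type} [MulAction GQ X] [Finite X] (ρ : X →[GQ] X) (hρ : ∀ x, ρ^[m] x = x)
    {P : ℤ[X]} (hP : IsIdemPoly p m P) :
    Nat.card (Minus c (PolyRange (IndMod.pull (Mu p) ρ) P)) =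
      cnt P (perm (conjMap c ρ) (ZMod p)) := by
  obtain ⟨j, hj, hjg, him⟩ := exists_minus_model hc ρ
  have hg : ∀ F : IndMod X (Mu p),
      (IndMod.pull (Mu p) ρ : IndMod X (Mu p) →+ IndMod X (Mu p))^[m] F = F := by
    intro F
    ext x
    rw [Minus.pull_iterate, hρ]
  have hmain := card_minus_abs (IndMod.pull (Mu p) ρ : IndMod X (Mu p) →+ IndMod X (Mu p))
    (perm (conjMap c ρ) (ZMod p)) (DistribSMul.toAddMonoidHom (IndMod X (Mu p)) c) j hj hjg him
    (fun v => (map_smul (IndMod.pull (Mu p) ρ) c v).symm) P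
    (fun v => EC.polyAdd_idem hP _ Minus.nsmul_indMod_mu hg v)
  rw [← hmain]
  refine Nat.card_congr
    { toFun := fun n => ⟨(GSub.range (polyMap (IndMod.pull (Mu p) ρ) P)).incl n.1,
        (GSub.range (polyMap (IndMod.pull (Mu p) ρ) P)).incl_mem n.1, ?_⟩
      invFun := fun v => ⟨(GSub.range (polyMap (IndMod.pull (Mu p) ρ) P)).mkMod v.1 v.2.1,
        (GSub.range (polyMap (IndMod.pull (Mu p) ρ) P)).incl_injective ?_⟩
      left_inv := fun n => rfl
      right_inv := fun v => rfl }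
  · have h1 := congrArg (GSub.range (polyMap (IndMod.pull (Mu p) ρ) P)).incl n.2
    rw [GSub.incl_smul, map_neg] at h1
    exact h1
  · rw [GSub.incl_smul, map_neg]
    exact v.2.2

end Fermat.Agent.S56.EC.Base
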