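/-
S56 / EC / BASE / Dict : leaf EC-B-D-D3 (local orbits on `X_K` = primes of `K`, explicitly).
-/
import Fermat.Agent.S56.EC.Base.Dict.Defs
import Fermat.Agent.S55.Units.Cl.LocOrb

set_option autoImplicit false

namespace Fermat.Agent.S56.EC.Base

open scoped Pointwise
open Fermat.Agent.S55 NumberField IsDedekindDomain
open Fermat.Agent.S55.NIT (Pl)
open Fermat.Agent.S55.Dict (fixG Below OverQ)

variable {K : Type} [Field K] [NumberField K] [Algebra K Qb]

/-- The orbit of `g U_K` under `G_q` ↦ the prime of `K` below `g⁻¹ • plc q`.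
[This is the bijection constructed (in the other direction) in the proof of
`Units.Cl.card_orbits_eq` + `card_orbits_resSet` + `range_ιv`
(`S55/Units/Cl/Orbits.lean`, `LocOrb.lean`): `Dict.exists_place`, `Below.unique`, `Below.smul`,
`Below.exists_smul`, `Dict.exists_below_smul`, `primeLocalPlace_liesOverPrime`.] -/
theorem exists_pl (q : Nat.Primes) :
    ∃ pl : LocOrb q (GQ ⧸ fixG K) → Pl K, Function.Injective pl ∧
      (∀ v : Pl K, (∃ ω, pl ω = v) ↔ OverQ K (q : ℕ) v) ∧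
      ∀ g : GQ, Below K (pl (Quotient.mk'' (ResSet.of ((g : GQ) : GQ ⧸ fixG K)))) (g⁻¹ • plc q) := by
  classical
  have hB : (plc q).LiesOverPrime (q : ℕ) := Units.Cl.primeLocalPlace_liesOverPrime q
  have hBg : ∀ g : GQ, (g⁻¹ • plc q).LiesOverPrime (q : ℕ) := fun g =>
    liesOverPrime_smul (plc q) g⁻¹ (q : ℕ) hB
  -- the place below `g⁻¹ • plc q`
  let w : GQ → Pl K := fun g => (Dict.exists_place (K := K) (g⁻¹ • plc q) q.2 (hBg g)).choose
  have hw : ∀ g : GQ, Below K (w g) (g⁻¹ • plc q) := fun g =>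
    (Dict.exists_place (K := K) (g⁻¹ • plc q) q.2 (hBg g)).choose_spec
  -- every orbit has a representative in `GQ`
  have hrep : ∀ ω : LocOrb q (GQ ⧸ fixG K),
      ∃ g : GQ, ω = Quotient.mk'' (ResSet.of ((g : GQ) : GQ ⧸ fixG K)) := by
    intro ω
    induction ω using Quotient.inductionOn' with
    | h x =>
      obtain ⟨x⟩ := x
      induction x using QuotientGroup.induction_on with
      | H g => exact ⟨g, rfl⟩
  -- the relation "same orbit" in terms of representatives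
  have hrel : ∀ g g' : GQ,
      ((Quotient.mk'' (ResSet.of ((g : GQ) : GQ ⧸ fixG K)) : LocOrb q (GQ ⧸ fixG K)) =
        Quotient.mk'' (ResSet.of ((g' : GQ) : GQ ⧸ fixG K))) ↔
      ∃ d ∈ Dict.Dec (plc q), (d * g')⁻¹ * g ∈ fixG K := by
    intro g g'
    rw [Quotient.eq'']
    constructor
    · rintro ⟨h, hh⟩
      refine ⟨ιv q h, ?_, ?_⟩
      · rw [← Units.Cl.range_ιv q]
        exact ⟨h, rfl⟩
      · have h1 := congrArg ResSet.val hh
        have h2 : (((ιv q h) * g' : GQ) : GQ ⧸ fixG K) = ((g : GQ) : GQ ⧸ fixG K) := h1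
        rwa [QuotientGroup.eq] at h2
    · rintro ⟨d, hd, hu⟩
      rw [← Units.Cl.range_ιv q] at hd
      obtain ⟨h, rfl⟩ := hd
      refine ⟨h, ResSet.ext ?_⟩
      show (((ιv q h) * g' : GQ) : GQ ⧸ fixG K) = ((g : GQ) : GQ ⧸ fixG K)
      rwa [QuotientGroup.eq]
  -- `w` is constant exactly on the orbits
  have hwrel : ∀ g g' : GQ, w g = w g' ↔ ∃ d ∈ Dict.Dec (plc q), (d * g')⁻¹ * g ∈ fixG K := by
    intro g g'
    constructor
    · intro h
      have h1 : Below K (w g) (g'⁻¹ • plc q) := h ▸ hw g'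
      obtain ⟨u, hu, hue⟩ := (hw g).exists_smul h1
      -- `d = g u⁻¹ g'⁻¹`
      have hd : g * u⁻¹ * g'⁻¹ ∈ Dict.Dec (plc q) := by
        rw [Dict.mem_Dec, mul_smul, mul_smul, ← hue, inv_smul_smul, smul_inv_smul]
      refine ⟨_, hd, ?_⟩
      simpa using hu
    · rintro ⟨d, hd, hu⟩
      have e1 : ((d * g')⁻¹ * g) • g⁻¹ • plc q = g'⁻¹ • plc q := by
        have hdB : d⁻¹ • plc q = plc q := by
          rw [inv_smul_eq_iff]
          exact (Dict.mem_Dec.1 hd).symm
        rw [smul_smul, mul_assoc, mul_inv_cancel, mul_one, mul_inv_rev, mul_smul, hdB]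
      have h3 : Below K (w g) (g'⁻¹ • plc q) := by
        rw [← e1]
        exact (hw g).smul hu
      exact h3.unique (hw g')
  let γ : LocOrb q (GQ ⧸ fixG K) → GQ := fun ω => (hrep ω).choose
  have hγ : ∀ ω, ω = Quotient.mk'' (ResSet.of ((γ ω : GQ) : GQ ⧸ fixG K)) := fun ω =>
    (hrep ω).choose_spec
  have hpl : ∀ g : GQ, w (γ (Quotient.mk'' (ResSet.of ((g : GQ) : GQ ⧸ fixG K)))) = w g := by
    intro g
    rw [hwrel, ← hrel]
    exact (hγ _).symm
  refine ⟨fun ω => w (γ ω), ?_, ?_, ?_⟩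
  · intro ω ω' h
    have h1 : w (γ ω) = w (γ ω') := h
    rw [hwrel, ← hrel] at h1
    rw [hγ ω, hγ ω']
    exact h1
  · intro v
    constructor
    · rintro ⟨ω, rfl⟩
      exact ((hw (γ ω)).overQ_iff (q : ℕ)).2 (hBg _)
    · intro hv
      obtain ⟨g, hg⟩ := Dict.exists_below_smul q.2 hB v hv
      refine ⟨Quotient.mk'' (ResSet.of ((g : GQ) : GQ ⧸ fixG K)), ?_⟩
      show w (γ _) = v
      rw [hpl]
      exact (hw g).unique hg
  · intro g
    show Below K (w (γ _)) _
    rw [hpl]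
    exact hw g

end Fermat.Agent.S56.EC.Base
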