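/-
S56 / EC / BASE / Dict : leaf EC-B-D-D4 (the prime below `s⁻¹ • B` is `σ⁻¹` of the prime below `B`).
-/
import Fermat.Agent.S56.EC.Base.Dict.Defs
import Fermat.Agent.S55.Dict.Below
import Fermat.Agent.S55.NIT.FI.GaloisVal

set_option autoImplicit false

namespace Fermat.Agent.S56.EC.Base

open scoped Pointwise
open Fermat.Agent.S55 NumberField IsDedekindDomain
open Fermat.Agent.S55.NIT (Pl)
open Fermat.Agent.S55.Dict (fixG Below OverQ)

variable {K : Type} [Field K] [NumberField K] [Algebra K Qb]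

/-- [`e : 𝓞 K ≃+* 𝓞 K` induced by `σ` (`RingOfIntegers.mapRingEquiv`); the prime
`HeightOneSpectrum.comap e _ v` lies below `s⁻¹ • B`:
`x ∈ comap ↔ σ x ∈ v ↔ alg (σ x) = s (alg x) ∈ B.nonunits ↔ alg x ∈ (s⁻¹ • B).nonunits`;
so it is `v'` (`Below.unique`); conclude with `NIT.FI.GaloisVal.valuation_comap`.] -/
theorem valuation_of_below_smul {s : GQ} {σ : K ≃+* K} (hσ : IsResOf s σ) {v v' : Pl K}
    {B : ValuationSubring Qb} (hv : Below K v B) (hv' : Below K v' (s⁻¹ • B)) (x : K) :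
    v'.valuation K x = v.valuation K (σ x) := by
  let e : 𝓞 K ≃+* 𝓞 K := RingOfIntegers.mapRingEquiv σ
  have hbelow : Below K (HeightOneSpectrum.comap (e : 𝓞 K →+* 𝓞 K) e.surjective v) (s⁻¹ • B) := by
    intro y
    change e y ∈ v.asIdeal ↔ _
    rw [Fermat.Agent.Lib.WeakChebotarev.Transfer.mem_nonunits_smul_iff, inv_inv]
    have h1 : s (algebraMap K Qb (y : K)) = algebraMap K Qb ((e y : 𝓞 K) : K) := (hσ (y : K)).symm
    rw [h1]
    exact hv (e y)
  have hvv : v' = HeightOneSpectrum.comap (e : 𝓞 K →+* 𝓞 K) e.surjective v :=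
    Fermat.Agent.S55.Dict.Below.unique hv' hbelow
  rw [hvv]
  exact Fermat.Agent.S55.NIT.FI.GaloisVal.valuation_comap e (σ : K →+* K) (fun _ => rfl) v x

end Fermat.Agent.S56.EC.Base
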