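/-
S56 / EC / BASE / Dict : leaves EC-B-D-D5a,b (orbits of complex conjugation on `X_K` = infinite places).
Proved by helper123.
-/
import Fermat.Agent.S56.EC.Base.Dict.Defs

set_option autoImplicit false

namespace Fermat.Agent.S56.EC.Base

open Fermat.Agent.S55 NumberField
open Fermat.Agent.S55.Dict (fixG)

variable {K : Type} [Field K] [NumberField K] [Algebra K Qb]

/-- The complex embedding `ι ∘ g ∘ alg` of `K`. -/
noncomputable def embOf (K : Type) [Field K] [Algebra K Qb] (ι : Qb →+* ℂ) (g : GQ) : K →+* ℂ :=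
  ι.comp ((g : Qb →+* Qb).comp (algebraMap K Qb))

theorem embOf_apply (ι : Qb →+* ℂ) (g : GQ) (x : K) : embOf K ι g x = ι (g (algebraMap K Qb x)) := rfl

/-- two embeddings of `Qb` in `ℂ` have the same image -/
theorem InfPlaces.exists_eq (ι ι' : Qb →+* ℂ) (y : Qb) : ∃ z : Qb, ι z = ι' y := by
  have halg : Algebra.IsAlgebraic ℚ Qb := AlgebraicClosure.isAlgebraic ℚ
  have hy : IsIntegral ℚ y := (Algebra.IsAlgebraic.isAlgebraic y).isIntegral
  have hs : ((minpoly ℚ y).map (algebraMap ℚ Qb)).Splits := IsAlgClosed.splits _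
  have h0 : (minpoly ℚ y).map (algebraMap ℚ Qb) ≠ 0 :=
    (Polynomial.map_ne_zero_iff (algebraMap ℚ Qb).injective).2 (minpoly.ne_zero hy)
  have hroot : (((minpoly ℚ y).map (algebraMap ℚ Qb)).map ι).IsRoot (ι' y) := by
    have e : ι.comp (algebraMap ℚ Qb) = ι'.comp (algebraMap ℚ Qb) := Subsingleton.elim _ _
    rw [Polynomial.map_map, e, Polynomial.IsRoot.def, Polynomial.eval_map, ← Polynomial.hom_eval₂,
      ← Polynomial.aeval_def, minpoly.aeval, map_zero]
  exact hs.mem_range_of_isRoot h0 hroot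

/-- two embeddings of `Qb` in `ℂ` differ by an automorphism -/
theorem InfPlaces.exists_aut (ι ι' : Qb →+* ℂ) : ∃ g : GQ, ∀ y : Qb, ι (g y) = ι' y := by
  have halg : Algebra.IsAlgebraic ℚ Qb := AlgebraicClosure.isAlgebraic ℚ
  choose f hf using InfPlaces.exists_eq ι ι'
  let g₀ : Qb →+* Qb :=
    { toFun := f
      map_one' := ι.injective (by rw [hf, map_one, map_one])
      map_mul' := fun a b => ι.injective (by rw [hf, map_mul, map_mul, hf, hf])
      map_zero' := ι.injective (by rw [hf, map_zero, map_zero])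
      map_add' := fun a b => ι.injective (by rw [hf, map_add, map_add, hf, hf]) }
  have hbij : Function.Bijective g₀.toRatAlgHom :=
    Algebra.IsAlgebraic.algHom_bijective g₀.toRatAlgHom
  exact ⟨AlgEquiv.ofBijective g₀.toRatAlgHom hbij, fun y => hf y⟩

/-- (D5a) every complex embedding of `K` is `ι ∘ g ∘ alg`.
[`φ x` is algebraic over `ℚ`, `ι` identifies `Qb` with the algebraic closure of `ℚ` in `ℂ`: e.g.
`IsAlgClosed.lift` gives `ψ : K →ₐ[ℚ] Qb` ... simplest route: regard `ℂ` as a `K`-algebra via `φ` and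
`Qb` as an algebraic extension of `K`; `IsAlgClosed.lift : Qb →ₐ[K] ℂ` gives `ι' : Qb →+* ℂ` with
`ι' ∘ alg = φ`; `ι` and `ι'` have the same image (the algebraic numbers: a root in `ℂ` of
`f ∈ ℚ[X]` is the image of a root in `Qb` since `f` splits in `Qb`), so `g := ι⁻¹ ∘ ι'` is a ring
endomorphism of `Qb`, bijective, `ℚ`-linear.] -/
theorem exists_embOf_eq (ι : Qb →+* ℂ) (φ : K →+* ℂ) : ∃ g : GQ, embOf K ι g = φ := by
  have halg : Algebra.IsAlgebraic ℚ Qb := AlgebraicClosure.isAlgebraic ℚ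
  have halgK : Algebra.IsAlgebraic K Qb := Algebra.IsAlgebraic.tower_top (K := ℚ) K
  letI : Algebra K ℂ := φ.toAlgebra
  let ι' : Qb →ₐ[K] ℂ := IsAlgClosed.lift
  obtain ⟨g, hg⟩ := InfPlaces.exists_aut ι (ι' : Qb →+* ℂ)
  refine ⟨g, RingHom.ext fun x => ?_⟩
  rw [embOf_apply, hg]
  exact ι'.commutes x

/-- (D5b) -/
theorem embOf_eq_iff (ι : Qb →+* ℂ) (g g' : GQ) :
    embOf K ι g = embOf K ι g' ↔ ((g : GQ) : GQ ⧸ fixG K) = (g' : GQ ⧸ fixG K) := by
  rw [QuotientGroup.eq]
  constructor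
  · intro h x
    have h1 : ι (g (algebraMap K Qb x)) = ι (g' (algebraMap K Qb x)) :=
      congrArg (fun ψ : K →+* ℂ => ψ x) h
    show g⁻¹ (g' (algebraMap K Qb x)) = algebraMap K Qb x
    rw [← ι.injective h1]
    exact g.symm_apply_apply _
  · intro h
    refine RingHom.ext fun x => ?_
    rw [embOf_apply, embOf_apply]
    have h1 : g⁻¹ (g' (algebraMap K Qb x)) = algebraMap K Qb x := h x
    have h2 : g (g⁻¹ (g' (algebraMap K Qb x))) = g' (algebraMap K Qb x) := g.apply_symm_apply _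
    rw [← h2, h1]

theorem conj_embOf {c : GQ} {ι : Qb →+* ℂ} (hι : ∀ x : Qb, ι (c x) = (starRingEnd ℂ) (ι x))
    (g : GQ) : ComplexEmbedding.conjugate (embOf K ι g) = embOf K ι (c * g) := by
  refine RingHom.ext fun x => ?_
  rw [ComplexEmbedding.conjugate_coe_eq, embOf_apply, embOf_apply, ← hι]
  rfl

theorem embOf_mul_of_isResOf (ι : Qb →+* ℂ) {s : GQ} {σ : K ≃+* K} (hσ : IsResOf s σ) (g : GQ) :
    embOf K ι (g * s) = (embOf K ι g).comp (σ : K →+* K) := by
  refine RingHom.ext fun x => ?_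
  show ι (g (s (algebraMap K Qb x))) = ι (g (algebraMap K Qb (σ x)))
  rw [hσ x]

end Fermat.Agent.S56.EC.Base
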