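/-
S56 / EC / BASE / Dict : leaf EC-B-D-D6 (`⟨c⟩ \ X_K ≃ InfinitePlace K`, equivariantly).
(architect helper58, proof helper266)
-/
import Fermat.Agent.S56.EC.Base.Dict.InfPlaces

set_option autoImplicit false

namespace Fermat.Agent.S56.EC.Base

open Fermat.Agent.S55 NumberField
open Fermat.Agent.S55.Dict (fixG)

variable {K : Type} [Field K] [NumberField K] [Algebra K Qb]

/-- the subgroup of the `h` which do not change the place of `ι ∘ g`. -/
private def InfEquiv.stab (K : Type) [Field K] [NumberField K] [Algebra K Qb] (ι : Qb →+* ℂ) :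
    Subgroup GQ where
  carrier := {h | ∀ g : GQ, InfinitePlace.mk (embOf K ι (h * g)) = InfinitePlace.mk (embOf K ι g)}
  one_mem' g := by rw [one_mul]
  mul_mem' := by
    intro a b ha hb g
    rw [mul_assoc, ha, hb]
  inv_mem' := by
    intro a ha g
    have := ha (a⁻¹ * g)
    rw [mul_inv_cancel_left] at this
    exact this.symm

private theorem InfEquiv.zpowers_le {c : GQ} {ι : Qb →+* ℂ}
    (hι : ∀ x : Qb, ι (c x) = (starRingEnd ℂ) (ι x)) :
    Subgroup.zpowers c ≤ InfEquiv.stab K ι := by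
  rw [Subgroup.zpowers_le]
  intro g
  rw [← conj_embOf hι, InfinitePlace.mk_conjugate_eq]

/-- `g U ↦ InfinitePlace.mk (embOf K ι g)`. -/
private noncomputable def InfEquiv.f0 (K : Type) [Field K] [NumberField K] [Algebra K Qb]
    (ι : Qb →+* ℂ) : GQ ⧸ fixG K → InfinitePlace K :=
  Quotient.lift (fun g : GQ => InfinitePlace.mk (embOf K ι g)) (by
    intro a b hab
    have h : ((a : GQ) : GQ ⧸ fixG K) = (b : GQ ⧸ fixG K) := Quotient.sound hab
    show InfinitePlace.mk (embOf K ι a) = InfinitePlace.mk (embOf K ι b)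
    rw [(embOf_eq_iff ι a b).mpr h])

private theorem InfEquiv.f0_mk (ι : Qb →+* ℂ) (g : GQ) :
    InfEquiv.f0 K ι (g : GQ ⧸ fixG K) = InfinitePlace.mk (embOf K ι g) := rfl

/-- `⟦g U⟧ ↦ InfinitePlace.mk (embOf K ι g)`. -/
private noncomputable def InfEquiv.f {c : GQ} {ι : Qb →+* ℂ}
    (hι : ∀ x : Qb, ι (c x) = (starRingEnd ℂ) (ι x)) :
    ConjOrb c (GQ ⧸ fixG K) → InfinitePlace K :=
  Quotient.lift (InfEquiv.f0 K ι) (by
    rintro a b ⟨h, rfl⟩
    induction b using QuotientGroup.induction_on with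
    | H g => exact InfEquiv.zpowers_le hι h.2 g)

private theorem InfEquiv.f_mk {c : GQ} {ι : Qb →+* ℂ}
    (hι : ∀ x : Qb, ι (c x) = (starRingEnd ℂ) (ι x)) (g : GQ) :
    InfEquiv.f (K := K) hι (Quotient.mk'' (g : GQ ⧸ fixG K)) = InfinitePlace.mk (embOf K ι g) := rfl

/-- `⟦g U⟧ ↦ InfinitePlace.mk (embOf K ι g)`.
[well defined on `GQ ⧸ fixG K` by `embOf_eq_iff`, on `⟨c⟩`-orbits by `conj_embOf` +
`InfinitePlace.mk_conjugate_eq` (zpow induction, or `c * c = 1`); injective by
`InfinitePlace.mk_eq_iff`, `conj_embOf`, `embOf_eq_iff`; surjective by `exists_embOf_eq`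
(`InfinitePlace.mk_embedding`); equivariance by `embOf_mul_of_isResOf` and `InfinitePlace.comap_mk`.] -/
theorem exists_infEquiv {c : GQ} (hc : IsConj c) :
    ∃ w : ConjOrb c (GQ ⧸ fixG K) ≃ InfinitePlace K,
      ∀ (s : GQ) (hs : ∀ u ∈ fixG K, s⁻¹ * u * s ∈ fixG K) (σ : K ≃+* K), IsResOf s σ →
        ∀ y, w (conjMap c (cosetRight (fixG K) s hs) y) = tauInf σ (w y) := by
  obtain ⟨ι, hι⟩ := hc
  have hinj : Function.Injective (InfEquiv.f (K := K) hι) := by
    intro x y hxy
    induction x using Quotient.inductionOn' with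
    | h a =>
    induction y using Quotient.inductionOn' with
    | h b =>
    induction a using QuotientGroup.induction_on with
    | H g =>
    induction b using QuotientGroup.induction_on with
    | H g' =>
    rw [InfEquiv.f_mk, InfEquiv.f_mk, InfinitePlace.mk_eq_iff] at hxy
    rcases hxy with h | h
    · rw [(embOf_eq_iff ι g g').mp h]
    · rw [conj_embOf hι, embOf_eq_iff] at h
      refine (Quotient.sound' ?_).symm
      exact ⟨⟨c, Subgroup.mem_zpowers c⟩, h⟩
  have hsurj : Function.Surjective (InfEquiv.f (K := K) hι) := by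
    intro w
    obtain ⟨g, hg⟩ := exists_embOf_eq (K := K) ι w.embedding
    exact ⟨Quotient.mk'' (g : GQ ⧸ fixG K), by rw [InfEquiv.f_mk, hg, InfinitePlace.mk_embedding]⟩
  refine ⟨Equiv.ofBijective _ ⟨hinj, hsurj⟩, fun s hs σ hσ y => ?_⟩
  induction y using Quotient.inductionOn' with
  | h a =>
  induction a using QuotientGroup.induction_on with
  | H g =>
  show InfEquiv.f (K := K) hι (Quotient.mk'' ((g * s : GQ) : GQ ⧸ fixG K)) =
    tauInf σ (InfEquiv.f (K := K) hι (Quotient.mk'' (g : GQ ⧸ fixG K)))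
  rw [InfEquiv.f_mk, InfEquiv.f_mk, embOf_mul_of_isResOf ι hσ, tauInf, InfinitePlace.comap_mk]

end Fermat.Agent.S56.EC.Base
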