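/-
S56 / EC / BASE / Dict : leaf EC-B-D-D1 (the automorphism of `K` induced by `s : GQ`).
-/
import Fermat.Agent.S56.EC.Base.Dict.Defs
import Fermat.Agent.S55.Dict.Fix

set_option autoImplicit false

namespace Fermat.Agent.S56.EC.Base

open Fermat.Agent.S55 NumberField
open Fermat.Agent.S55.Dict (fixG)

variable {K : Type} [Field K] [NumberField K] [Algebra K Qb]

/-- normality: `s (alg x)` comes from `K`. -/
private theorem ResAut.exists_apply (hN : (fixG K).Normal) (s : GQ) (x : K) :
    ∃ z : K, algebraMap K Qb z = s (algebraMap K Qb x) := by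
  apply Dict.exists_algebraMap_eq_of_fixed
  intro g hg
  have h : s⁻¹ * g * s⁻¹⁻¹ ∈ fixG K := hN.conj_mem g hg s⁻¹
  have h1 := h x
  rw [inv_inv] at h1
  have h2 : s⁻¹ (g (s (algebraMap K Qb x))) = algebraMap K Qb x := h1
  have h3 := congrArg s h2
  rwa [show s (s⁻¹ (g (s (algebraMap K Qb x)))) = g (s (algebraMap K Qb x)) from
    AlgEquiv.apply_symm_apply s _] at h3

/-- `s (alg x)` is fixed by `fixG K` (normality), so it is `alg z` for a unique `z`
(`Dict.exists_algebraMap_eq_of_fixed`); same for `s⁻¹`; `RingEquiv` from the two maps. -/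
theorem exists_isResOf (hN : (fixG K).Normal) (s : GQ) : ∃ σ : K ≃+* K, IsResOf s σ := by
  have hinj : Function.Injective (algebraMap K Qb) := (algebraMap K Qb).injective
  choose f hf using ResAut.exists_apply hN s
  choose f' hf' using ResAut.exists_apply hN s⁻¹
  refine ⟨{ toFun := f, invFun := f', left_inv := ?_, right_inv := ?_, map_mul' := ?_,
            map_add' := ?_ }, hf⟩
  · intro x
    apply hinj
    rw [hf', hf]
    exact AlgEquiv.symm_apply_apply s _
  · intro x
    apply hinj
    rw [hf, hf']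
    exact AlgEquiv.apply_symm_apply s _
  · intro x y
    apply hinj
    rw [hf, map_mul, map_mul, map_mul, hf, hf]
  · intro x y
    apply hinj
    rw [hf, map_add, map_add, map_add, hf, hf]

theorem IsResOf.iterate {s : GQ} {σ : K ≃+* K} (h : IsResOf s σ) (k : ℕ) (x : K) :
    algebraMap K Qb (σ^[k] x) = (s ^ k) (algebraMap K Qb x) := by
  induction k with
  | zero => rfl
  | succ k ih =>
    rw [Function.iterate_succ_apply', h, ih, pow_succ']
    rfl

theorem IsResOf.iterate_eq {s : GQ} {σ : K ≃+* K} (h : IsResOf s σ) {m : ℕ} (hsm : s ^ m ∈ fixG K)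
    (x : K) : σ^[m] x = x := by
  apply (algebraMap K Qb).injective
  rw [h.iterate]
  exact hsm x

end Fermat.Agent.S56.EC.Base
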