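/-
S56 / EC / BASE / Dict : leaf EC-B-D-D2 (`H⁰_S(E_X)` with the operator `ρ^*` is the group of
`S_K`-units with the operator `σ`).  Task 3221, helper122.
-/
import Fermat.Agent.S56.EC.Base.Dict.Defs
import Fermat.Agent.S55.Units.Cl.ES

set_option autoImplicit false

namespace Fermat.Agent.S56.EC.Base

open Fermat.Agent.S55 NumberField IsDedekindDomain
open Fermat.Agent.S55.NIT (Pl)
open Fermat.Agent.S55.Dict (fixG kx)
open Fermat.Agent.S55.Units.Cl (IsSField SK)

variable {S : Finset Nat.Primes} {K : Type} [Field K] [NumberField K] [Algebra K Qb]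

/-- `s • kx K a = kx K (σ a)`. -/
private theorem UnitModel.smul_kx {s : GQ} {σ : K ≃+* K} (hσ : IsResOf s σ) (a : Kˣ) :
    s • kx K a = kx K (Units.map (σ : K →* K) a) := by
  apply Additive.toMul.injective
  apply Units.ext
  exact (hσ (a : K)).symm

/-- `ι := (coercion to Kˣ) ∘ e ∘ Hsm.H0equiv`, `e` from `Units.Cl.exists_esEquiv hK`
(characterised by `incl (f 1) = kx K (e f)`). -/
theorem exists_unitModel (hK : IsSField S K) (s : GQ) (hs : ∀ u ∈ fixG K, s⁻¹ * u * s ∈ fixG K)
    (σ : K ≃+* K) (hσ : IsResOf s σ) {T : Type} (pl : T → Pl K)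
    (hpl : ∀ v : Pl K, (∃ t, pl t = v) ↔ v ∈ SK S K) :
    ∃ ι : Hsm (lvlS S) (IndMod (GQ ⧸ fixG K) (ESx S)) 0 →+ Additive Kˣ,
      IsUnitModel σ pl (opS S (ESx S) (cosetRight (fixG K) s hs) 0) ι := by
  obtain ⟨e, he⟩ := Units.Cl.exists_esEquiv (S := S) (K := K) hK
  set c : Additive ↥((SK S K : Set (Pl K)).unit K) →+ Additive Kˣ :=
    MonoidHom.toAdditive (Subgroup.subtype ((SK S K : Set (Pl K)).unit K)) with hc
  have hcinj : Function.Injective c := by
    intro a b hab
    apply Additive.toMul.injective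
    apply Subtype.ext
    exact congrArg Additive.toMul hab
  refine ⟨c.comp (e.toAddMonoidHom.comp
    (Hsm.H0equiv (𝓝 := lvlS S) (A := IndMod (GQ ⧸ fixG K) (ESx S))).toAddMonoidHom), ?_, ?_, ?_⟩
  · -- injectivity
    intro a b hab
    exact Hsm.H0equiv.injective (e.injective (hcinj hab))
  · -- equivariance
    intro x
    show c (e (Hsm.H0equiv (Hsm.map (IndMod.pull (ESx S) (cosetRight (fixG K) s hs)) 0 x))) =
      sigK σ (c (e (Hsm.H0equiv x)))
    rw [Hsm.H0equiv_map]
    set f := Hsm.H0equiv x with hf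
    apply Additive.toMul.injective
    apply Units.Cl.kx_injective (K := K)
    show kx K ((Additive.toMul (e (inv0.map (IndMod.pull (ESx S) (cosetRight (fixG K) s hs)) f)) :
        ↥((SK S K : Set (Pl K)).unit K)) : Kˣ) =
      kx K (Units.map (σ : K →* K) ((Additive.toMul (e f) : ↥((SK S K : Set (Pl K)).unit K)) : Kˣ))
    rw [← he, ← UnitModel.smul_kx hσ, ← he, ← GSub.incl_smul]
    congr 1
    rw [← Units.Cl.apply_mk_of_mem_inv0 f.2 s]
    show (f : IndMod (GQ ⧸ fixG K) (ESx S)) (((1 * s : GQ)) : GQ ⧸ fixG K) = _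
    rw [one_mul]
  · -- the range
    intro x
    constructor
    · rintro ⟨y, hy⟩ v hv
      have hx : x = ((Additive.toMul (e (Hsm.H0equiv y)) : ↥((SK S K : Set (Pl K)).unit K)) : Kˣ) :=
        (congrArg Additive.toMul hy).symm
      have hmem : x ∈ (SK S K : Set (Pl K)).unit K := by
        rw [hx]; exact Subtype.property _
      refine hmem v ?_
      intro hvS
      obtain ⟨t, ht⟩ := (hpl v).2 (Finset.mem_coe.1 hvS)
      exact hv t ht
    · intro h
      have hmem : x ∈ (SK S K : Set (Pl K)).unit K := by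
        intro v hv
        refine h v ?_
        intro t ht
        exact hv (Finset.mem_coe.2 ((hpl v).1 ⟨t, ht⟩))
      refine ⟨Hsm.H0equiv.symm (e.symm (Additive.ofMul ⟨x, hmem⟩)), ?_⟩
      show c (e (Hsm.H0equiv (Hsm.H0equiv.symm (e.symm (Additive.ofMul ⟨x, hmem⟩))))) = _
      rw [AddEquiv.apply_symm_apply, AddEquiv.apply_symm_apply]
      rfl

end Fermat.Agent.S56.EC.Base
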