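/-
S56 / EC / BASE / Dict : node EC-B-D-D7 (export `units_count`; assembly of D1-D6 with `units_nf`).
-/
import Fermat.Agent.S56.EC.Base.Dict.ResAut
import Fermat.Agent.S56.EC.Base.Dict.UnitModel
import Fermat.Agent.S56.EC.Base.Dict.FinPlaces
import Fermat.Agent.S56.EC.Base.Dict.FinPlacesEquiv
import Fermat.Agent.S56.EC.Base.Dict.InfEquiv
import Fermat.Agent.S56.EC.Base.UnitsNF
import Fermat.Agent.S56.EC.Base.Perm
import Fermat.Agent.S55.Units.Cl.Field

set_option autoImplicit false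

namespace Fermat.Agent.S56.EC.Base

open scoped Pointwise
open Fermat.Agent.S55 NumberField IsDedekindDomain Polynomial
open Fermat.Agent.S55.NIT (Pl)
open Fermat.Agent.S55.Dict (fixG Below OverQ)
open Fermat.Agent.S55.Units.Cl (IsSField SK)

/-- the family of all places over `S`, with its equivariance -/
theorem exists_plS (S : Finset Nat.Primes) {K : Type} [Field K] [NumberField K] [Algebra K Qb] :
    ∃ pl : (Σ q : ↥S, LocOrb q.1 (GQ ⧸ fixG K)) → Pl K, Function.Injective pl ∧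
      (∀ v : Pl K, (∃ t, pl t = v) ↔ v ∈ SK S K) ∧
      ∀ (s : GQ) (hs : ∀ u ∈ fixG K, s⁻¹ * u * s ∈ fixG K) (σ : K ≃+* K), IsResOf s σ →
        ∀ t x, (pl (locMapS S (cosetRight (fixG K) s hs) t)).valuation K x =
          (pl t).valuation K (σ x) := by
  choose pl hinj himg hbelow using fun q : Nat.Primes => exists_pl (K := K) q
  refine ⟨fun t => pl t.1.1 t.2, ?_, ?_, ?_⟩
  · rintro ⟨q, ω⟩ ⟨q', ω'⟩ h
    have h' : pl q.1 ω = pl q'.1 ω' := h
    have h1 : OverQ K (q.1 : ℕ) (pl q.1 ω) := (himg q.1 _).1 ⟨ω, rfl⟩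
    have h2 : OverQ K (q'.1 : ℕ) (pl q.1 ω) := by
      rw [h']
      exact (himg q'.1 _).1 ⟨ω', rfl⟩
    have hq : q = q' :=
      Subtype.ext (Subtype.ext (Units.Cl.Orbits.overQ_unique q.1.2 q'.1.2 h1 h2))
    subst hq
    rw [hinj q.1 h']
  · intro v
    rw [Units.Cl.mem_SK]
    constructor
    · rintro ⟨⟨q, ω⟩, rfl⟩
      exact ⟨q.1, q.2, (himg q.1 _).1 ⟨ω, rfl⟩⟩
    · rintro ⟨q, hq, hv⟩
      obtain ⟨ω, rfl⟩ := (himg q v).2 hv
      exact ⟨⟨⟨q, hq⟩, ω⟩, rfl⟩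
  · rintro s hs σ hσ ⟨q, ω⟩ x
    induction ω using Quotient.inductionOn' with
    | h y =>
      obtain ⟨y⟩ := y
      induction y using QuotientGroup.induction_on with
      | H g =>
        show (pl q.1 (Quotient.mk'' (ResSet.of ((g * s : GQ) : GQ ⧸ fixG K)))).valuation K x =
          (pl q.1 (Quotient.mk'' (ResSet.of ((g : GQ) : GQ ⧸ fixG K)))).valuation K (σ x)
        refine valuation_of_below_smul hσ (hbelow q.1 g) ?_ x
        have := hbelow q.1 (g * s)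
        rwa [mul_inv_rev, mul_smul] at this

/-- `units_count` for `U = fixG K`. -/
theorem units_count_field {S : Finset Nat.Primes} {p m : ℕ} [Fact p.Prime] {c : GQ}
    (hc : IsConj c) {K : Type} [Field K] [NumberField K] [Algebra K Qb] (hK : IsSField S K)
    (hN : (fixG K).Normal) (s : GQ) (hs : ∀ u ∈ fixG K, s⁻¹ * u * s ∈ fixG K)
    (hm : 0 < m) (hsm : s ^ m ∈ fixG K) {P : ℤ[X]} (hP : IsIdemPoly p m P) :
    cntM p P (opS S (ESx S) (cosetRight (fixG K) s hs) 0) * cnt P (AddMonoidHom.id (ZMod p)) =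
      cntT p P (opS S (ESx S) (cosetRight (fixG K) s hs) 0) *
        ((∏ q : ↥S, cnt P (perm (locMap q.1 (cosetRight (fixG K) s hs)) (ZMod p))) *
          cnt P (perm (conjMap c (cosetRight (fixG K) s hs)) (ZMod p))) := by
  obtain ⟨σ, hσ⟩ := exists_isResOf hN s
  obtain ⟨pl, hinj, himg, hτ⟩ := exists_plS S (K := K)
  obtain ⟨ι, hι⟩ := exists_unitModel hK s hs σ hσ pl himg
  obtain ⟨w, hw⟩ := exists_infEquiv (K := K) hc
  have hfin : Finite (Σ q : ↥S, LocOrb q.1 (GQ ⧸ fixG K)) :=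
    Finite.of_injective (fun t => (⟨pl t, (himg _).1 ⟨t, rfl⟩⟩ : ↥(SK S K)))
      (fun a b h => hinj (congrArg Subtype.val h))
  have h := units_nf σ hm (hσ.iterate_eq hsm) pl hinj (locMapS S (cosetRight (fixG K) s hs))
    (hτ s hs σ hσ) hι (Fact.out : p.Prime).pos hP
  rw [h]
  have h1 : cnt P (perm (locMapS S (cosetRight (fixG K) s hs)) (ZMod p)) =
      ∏ q : ↥S, cnt P (perm (locMap q.1 (cosetRight (fixG K) s hs)) (ZMod p)) :=
    cnt_perm_sigma (fun q : ↥S => locMap q.1 (cosetRight (fixG K) s hs)) (ZMod p) P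
  have h2 : cnt P (perm (conjMap c (cosetRight (fixG K) s hs)) (ZMod p)) =
      cnt P (perm (tauInf σ) (ZMod p)) := cnt_perm_congr w (hw s hs σ hσ) (ZMod p) P
  rw [h1, h2]

/-- `h_π(H⁰_S(E_X)) · #π 𝔽_p = (∏_{q ∈ S} #π 𝔽_p[G_q \ X]) · #π 𝔽_p[⟨c⟩ \ X]`. -/
theorem units_count {S : Finset Nat.Primes} {p m : ℕ} [Fact p.Prime] {c : GQ} (hc : IsConj c)
    (U : Subgroup GQ) (hU : U ∈ (lvlS S).carrier) (s : GQ) (hs : ∀ u ∈ U, s⁻¹ * u * s ∈ U)
    (hm : 0 < m) (hsm : s ^ m ∈ U) {P : ℤ[X]} (hP : IsIdemPoly p m P) :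
    cntM p P (opS S (ESx S) (cosetRight U s hs) 0) * cnt P (AddMonoidHom.id (ZMod p)) =
      cntT p P (opS S (ESx S) (cosetRight U s hs) 0) *
        ((∏ q : ↥S, cnt P (perm (locMap q.1 (cosetRight U s hs)) (ZMod p))) *
          cnt P (perm (conjMap c (cosetRight U s hs)) (ZMod p))) := by
  obtain ⟨K, _, _, _, rfl, hK⟩ := Units.Cl.exists_sField_of_isOpen S U ⟨U, hU, le_rfl⟩
  exact units_count_field hc hK ((lvlS S).normal _ hU) s hs hm hsm hP

end Fermat.Agent.S56.EC.Base
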